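import Mathlib
import Fermat.Agent.S59.MFree.Spec

/-!
# Row S59, block M-FREE, leaf (D) — `EisensteinStatement` (helper941)

`T_l = l + 1` on the classes `φ : Γ₀(M) → B` which are trivial on the `γ` with `d ≡ 1 mod M`
(i.e. on `Hom(Γ₀(M)/Γ₁(M), B)`).

Proof.  `heckeRep l x * γ = γ_x * heckeRep l (π x)` and all matrices are upper triangular modulo
`M`, so `u_x · d(γ) = d(γ_x) · u_{π x}` in `ℤ/M` where `u_∞ = 1`, `u_j = l` is the lower right entry
of `heckeRep l x`.  With `lam ∈ Γ₀(M)`, `d(lam) = l`, and `c ∞ = 0`, `c j = φ lam` this gives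
`φ (γ_x) = φ γ + c x - c (π x)`; sum over `x ∈ ℙ¹(𝔽_l)` (`π` is a permutation).
-/

set_option autoImplicit false

namespace Fermat.Agent.S59.MFree.H941

open CongruenceSubgroup Matrix.SpecialLinearGroup
open Fermat.Agent.S41.Spec Fermat.Agent.S29.H642
open P2MW.S_ModularForm_heckeT_slash_eq_self_of_mem_Gamma0.ModularForm.HeckeSlashInvariance
open scoped MatrixGroups

universe u

/-- The lower right entry of `γ ∈ Γ₀(M)` modulo `M`. -/
def eisD (M : ℕ) (γ : Gamma0 M) : ZMod M := ((((γ : SL(2, ℤ)) 1 1 : ℤ)) : ZMod M)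

theorem eisD_lowerLeft {M : ℕ} (γ : Gamma0 M) : ((((γ : SL(2, ℤ)) 1 0 : ℤ)) : ZMod M) = 0 :=
  Gamma0_mem.mp γ.2

theorem eisD_mul {M : ℕ} (γ δ : Gamma0 M) : eisD M (γ * δ) = eisD M γ * eisD M δ := by
  have h : ((γ * δ : Gamma0 M) : SL(2, ℤ)) 1 1 =
      (γ : SL(2, ℤ)) 1 0 * (δ : SL(2, ℤ)) 0 1 + (γ : SL(2, ℤ)) 1 1 * (δ : SL(2, ℤ)) 1 1 := by
    simp [Matrix.mul_apply, Fin.sum_univ_two]
  unfold eisD
  rw [h]
  push_cast
  rw [eisD_lowerLeft γ]
  ring

theorem eisD_one {M : ℕ} : eisD M (1 : Gamma0 M) = 1 := by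
  unfold eisD
  simp

theorem eisD_inv_mul {M : ℕ} (γ : Gamma0 M) : eisD M γ⁻¹ * eisD M γ = 1 := by
  rw [← eisD_mul, inv_mul_cancel, eisD_one]

/-- A class trivial on `{d ≡ 1}` only depends on `d mod M`. -/
theorem eis_congr {M : ℕ} {B : Type*} [AddCommGroup B] (φ : Additive (Gamma0 M) →+ B)
    (hφ : ∀ γ : Gamma0 M, ((((γ : SL(2, ℤ)) 1 1 : ℤ)) : ZMod M) = 1 → φ (Additive.ofMul γ) = 0)
    {γ γ' : Gamma0 M} (h : eisD M γ = eisD M γ') :
    φ (Additive.ofMul γ) = φ (Additive.ofMul γ') := by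
  have h1 : eisD M (γ⁻¹ * γ') = 1 := by
    rw [eisD_mul, ← h, eisD_inv_mul]
  have h2 := hφ (γ⁻¹ * γ') h1
  rw [ofMul_mul, map_add, ofMul_inv, map_neg] at h2
  exact (neg_add_eq_zero.mp h2)

/-- The lower right entry of `heckeRep l x`. -/
def eisU (l : ℕ) (x : OnePoint (ZMod l)) : ℕ := x.elim 1 (fun _ => l)

@[simp] theorem eisU_infty (l : ℕ) : eisU l (OnePoint.infty : OnePoint (ZMod l)) = 1 := rfl

@[simp] theorem eisU_coe (l : ℕ) (j : ZMod l) : eisU l (j : OnePoint (ZMod l)) = l := rfl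

/-- The upper right entry of `heckeRep l x`. -/
def eisV (l : ℕ) (x : OnePoint (ZMod l)) : ℕ := x.elim 0 (fun j => j.val)

theorem heckeRep_one_zero {l : ℕ} (hl0 : l ≠ 0) (x : OnePoint (ZMod l)) :
    (heckeRep l x : GL (Fin 2) ℝ) 1 0 = 0 := by
  induction x using OnePoint.rec with
  | infty =>
    show ((ModularForm.heckeDiagMatrix l : GL (Fin 2) ℝ) : Matrix (Fin 2) (Fin 2) ℝ) 1 0 = 0
    rw [ModularForm.val_heckeDiagMatrix hl0]
    simp
  | coe j =>
    show ((ModularForm.heckeMatrix l j.val : GL (Fin 2) ℝ) : Matrix (Fin 2) (Fin 2) ℝ) 1 0 = 0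
    rw [ModularForm.val_heckeMatrix hl0]
    simp

theorem heckeRep_one_one {l : ℕ} (hl0 : l ≠ 0) (x : OnePoint (ZMod l)) :
    (heckeRep l x : GL (Fin 2) ℝ) 1 1 = (eisU l x : ℝ) := by
  induction x using OnePoint.rec with
  | infty =>
    show ((ModularForm.heckeDiagMatrix l : GL (Fin 2) ℝ) : Matrix (Fin 2) (Fin 2) ℝ) 1 1 = _
    rw [ModularForm.val_heckeDiagMatrix hl0]
    simp
  | coe j =>
    show ((ModularForm.heckeMatrix l j.val : GL (Fin 2) ℝ) : Matrix (Fin 2) (Fin 2) ℝ) 1 1 = _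
    rw [ModularForm.val_heckeMatrix hl0]
    simp

theorem heckeRep_zero_one {l : ℕ} (hl0 : l ≠ 0) (x : OnePoint (ZMod l)) :
    (heckeRep l x : GL (Fin 2) ℝ) 0 1 = (eisV l x : ℝ) := by
  induction x using OnePoint.rec with
  | infty =>
    show ((ModularForm.heckeDiagMatrix l : GL (Fin 2) ℝ) : Matrix (Fin 2) (Fin 2) ℝ) 0 1 = _
    rw [ModularForm.val_heckeDiagMatrix hl0]
    simp [eisV]
  | coe j =>
    show ((ModularForm.heckeMatrix l j.val : GL (Fin 2) ℝ) : Matrix (Fin 2) (Fin 2) ℝ) 0 1 = _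
    rw [ModularForm.val_heckeMatrix hl0]
    simp [eisV]

/-- The integral relation between the lower right entries. -/
theorem eis_entry_int {M l : ℕ} [Fact l.Prime] (hl : ¬ l ∣ M) (γ : Gamma0 M)
    (x : OnePoint (ZMod l)) :
    (eisU l x : ℤ) * (γ : SL(2, ℤ)) 1 1 =
      ((hElt hl γ x : Gamma0 M) : SL(2, ℤ)) 1 0 * (eisV l (hPerm l (γ : SL(2, ℤ)) x) : ℤ) +
        ((hElt hl γ x : Gamma0 M) : SL(2, ℤ)) 1 1 * (eisU l (hPerm l (γ : SL(2, ℤ)) x) : ℤ) := by
  have hl0 : l ≠ 0 := (Fact.out : l.Prime).ne_zero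
  have h := hElt_spec hl γ x
  have h2 := congrArg (fun A : GL (Fin 2) ℝ => (A : Matrix (Fin 2) (Fin 2) ℝ) 1 1) h
  simp only [Matrix.GeneralLinearGroup.coe_mul, Matrix.mul_apply, Fin.sum_univ_two] at h2
  have e1 : ((heckeRep l x : GL (Fin 2) ℝ) : Matrix (Fin 2) (Fin 2) ℝ) 1 0 = 0 :=
    heckeRep_one_zero hl0 x
  have e2 : ((heckeRep l x : GL (Fin 2) ℝ) : Matrix (Fin 2) (Fin 2) ℝ) 1 1 = (eisU l x : ℝ) :=
    heckeRep_one_one hl0 x
  have e3 : ((heckeRep l (hPerm l (γ : SL(2, ℤ)) x) : GL (Fin 2) ℝ) :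
      Matrix (Fin 2) (Fin 2) ℝ) 0 1 = (eisV l (hPerm l (γ : SL(2, ℤ)) x) : ℝ) :=
    heckeRep_zero_one hl0 _
  have e4 : ((heckeRep l (hPerm l (γ : SL(2, ℤ)) x) : GL (Fin 2) ℝ) :
      Matrix (Fin 2) (Fin 2) ℝ) 1 1 = (eisU l (hPerm l (γ : SL(2, ℤ)) x) : ℝ) :=
    heckeRep_one_one hl0 _
  have m1 : ((mapGL ℝ (γ : SL(2, ℤ)) : GL (Fin 2) ℝ) : Matrix (Fin 2) (Fin 2) ℝ) 1 1 =
      (((γ : SL(2, ℤ)) 1 1 : ℤ) : ℝ) := mapGL_apply _ 1 1
  have m2 : ((mapGL ℝ ((hElt hl γ x : Gamma0 M) : SL(2, ℤ)) : GL (Fin 2) ℝ) :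
      Matrix (Fin 2) (Fin 2) ℝ) 1 0 = ((((hElt hl γ x : Gamma0 M) : SL(2, ℤ)) 1 0 : ℤ) : ℝ) :=
    mapGL_apply _ 1 0
  have m3 : ((mapGL ℝ ((hElt hl γ x : Gamma0 M) : SL(2, ℤ)) : GL (Fin 2) ℝ) :
      Matrix (Fin 2) (Fin 2) ℝ) 1 1 = ((((hElt hl γ x : Gamma0 M) : SL(2, ℤ)) 1 1 : ℤ) : ℝ) :=
    mapGL_apply _ 1 1
  rw [e1, e2, e3, e4, m1, m2, m3, zero_mul, zero_add] at h2
  exact_mod_cast h2

/-- The relation `u_x · d(γ) = d(γ_x) · u_{π x}` in `ℤ/M`. -/
theorem eis_entry {M l : ℕ} [Fact l.Prime] (hl : ¬ l ∣ M) (γ : Gamma0 M)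
    (x : OnePoint (ZMod l)) :
    (eisU l x : ZMod M) * eisD M γ =
      eisD M (hElt hl γ x) * (eisU l (hPerm l (γ : SL(2, ℤ)) x) : ZMod M) := by
  have h := congrArg (Int.cast : ℤ → ZMod M) (eis_entry_int hl γ x)
  push_cast at h
  rw [eisD_lowerLeft (hElt hl γ x), zero_mul, zero_add] at h
  exact h

/-- An element of `Γ₀(M)` with lower right entry `l`. -/
theorem exists_eisD_eq {M l : ℕ} [Fact l.Prime] (hl : ¬ l ∣ M) :
    ∃ lam : Gamma0 M, eisD M lam = (l : ZMod M) := by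
  have hcop : IsCoprime (l : ℤ) (M : ℤ) :=
    Nat.isCoprime_iff_coprime.mpr ((Nat.Prime.coprime_iff_not_dvd Fact.out).mpr hl)
  obtain ⟨a, b, hab⟩ := hcop
  have hdet : (!![a, -b; (M : ℤ), (l : ℤ)] : Matrix (Fin 2) (Fin 2) ℤ).det = 1 := by
    rw [Matrix.det_fin_two_of]
    linear_combination hab
  let g : SL(2, ℤ) := ⟨!![a, -b; (M : ℤ), (l : ℤ)], hdet⟩
  have hg10 : g 1 0 = (M : ℤ) := rfl
  have hg11 : g 1 1 = (l : ℤ) := rfl
  have hg : g ∈ Gamma0 M := by
    rw [Gamma0_mem, hg10]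
    simp
  refine ⟨⟨g, hg⟩, ?_⟩
  show (((g 1 1 : ℤ)) : ZMod M) = (l : ZMod M)
  rw [hg11]
  simp

/-- **Leaf (D).** -/
theorem eisenstein : EisensteinStatement.{u} := by
  intro M l _ hl _ B _ φ hφ
  classical
  obtain ⟨lam, hlam⟩ := exists_eisD_eq (M := M) (l := l) hl
  refine AddMonoidHom.ext fun γ' => ?_
  obtain ⟨γ, rfl⟩ : ∃ γ : Gamma0 M, Additive.ofMul γ = γ' := ⟨Additive.toMul γ', rfl⟩
  rw [heckeTransfer_apply, AddMonoidHom.smul_apply]
  let c : OnePoint (ZMod l) → B := fun x => x.elim 0 (fun _ => φ (Additive.ofMul lam))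
  have key : ∀ x : OnePoint (ZMod l),
      φ (Additive.ofMul (hElt hl γ x)) =
        φ (Additive.ofMul γ) + c x - c (hPerm l (γ : SL(2, ℤ)) x) := by
    intro x
    have hx := eis_entry hl γ x
    generalize hPerm l (γ : SL(2, ℤ)) x = y at hx ⊢
    induction x using OnePoint.rec with
    | infty =>
      induction y using OnePoint.rec with
      | infty =>
        have h1 : eisD M γ = eisD M (hElt hl γ OnePoint.infty) := by
          simpa using hx
        have h2 := eis_congr φ hφ h1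
        simp only [c, OnePoint.elim_infty]
        rw [← h2]
        abel
      | coe j =>
        have h1 : eisD M γ = eisD M (hElt hl γ OnePoint.infty * lam) := by
          rw [eisD_mul, hlam]
          simpa using hx
        have h2 := eis_congr φ hφ h1
        rw [ofMul_mul, map_add] at h2
        simp only [c, OnePoint.elim_infty, OnePoint.elim_some]
        rw [h2]
        abel
    | coe i =>
      induction y using OnePoint.rec with
      | infty =>
        have h1 : eisD M (lam * γ) = eisD M (hElt hl γ (i : OnePoint (ZMod l))) := by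
          rw [eisD_mul, hlam]
          simpa using hx
        have h2 := eis_congr φ hφ h1
        rw [ofMul_mul, map_add] at h2
        simp only [c, OnePoint.elim_infty, OnePoint.elim_some]
        rw [← h2]
        abel
      | coe j =>
        have h1 : eisD M (lam * γ) = eisD M (hElt hl γ (i : OnePoint (ZMod l)) * lam) := by
          rw [eisD_mul, eisD_mul, hlam]
          simpa using hx
        have h2 := eis_congr φ hφ h1
        rw [ofMul_mul, map_add, ofMul_mul, map_add] at h2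
        simp only [c, OnePoint.elim_some]
        have h3 : φ (Additive.ofMul (hElt hl γ (i : OnePoint (ZMod l)))) = φ (Additive.ofMul γ) := by
          have := h2
          rw [add_comm] at this
          exact (add_right_cancel this).symm
        rw [h3]
        abel
  rw [Finset.sum_congr rfl (fun x _ => key x)]
  rw [Finset.sum_sub_distrib, Finset.sum_add_distrib]
  have hperm : ∑ x : OnePoint (ZMod l), c (hPerm l (γ : SL(2, ℤ)) x) = ∑ x, c x :=
    Equiv.sum_comp (hPerm l (γ : SL(2, ℤ))) c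
  rw [hperm, add_sub_cancel_right, Finset.sum_const, Finset.card_univ]
  have hcard : Fintype.card (OnePoint (ZMod l)) = l + 1 := by
    have : NeZero l := ⟨(Fact.out : l.Prime).ne_zero⟩
    rw [show Fintype.card (OnePoint (ZMod l)) = Fintype.card (Option (ZMod l)) from
      Fintype.card_congr (Equiv.refl _), Fintype.card_option, ZMod.card]
  rw [hcard]

end Fermat.Agent.S59.MFree.H941
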